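import Fermat.Agent.S56.Ec.Defs
import Fermat.Agent.S55.Top.CdSpec

/-!
# S56 / EC, leaf EC-ADD: additivity of the Euler-characteristic defect `ecgE`

The nine-term long exact sequence of smooth cohomology (`S55/Top/LesG.lean`), finiteness, `H³ = 0`
and exactness of `c`-invariants (`c² = 1`, `2 ≠ 0`).
-/

set_option autoImplicit false

namespace Fermat.Agent.S56

open Fermat.Agent.S55 Module

universe u

section Linear

variable {k : Type*} [Field k] {A B C : Type*} [AddCommGroup A] [Module k A] [AddCommGroup B]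
  [Module k B] [AddCommGroup C] [Module k C]

/-- rank-nullity at the middle term of an exact pair -/
theorem ecga_finrank_eq_range_add_range [FiniteDimensional k B] (f : A →ₗ[k] B) (g : B →ₗ[k] C)
    (hex : Function.Exact f g) :
    finrank k B = finrank k ↥(LinearMap.range f) + finrank k ↥(LinearMap.range g) := by
  rw [← LinearMap.finrank_range_add_finrank_ker g, (LinearMap.exact_iff.1 hex), add_comm]

/-- dimension of the middle term of a short exact sequence -/
theorem ecga_finrank_of_exact [FiniteDimensional k B] (f : A →ₗ[k] B) (g : B →ₗ[k] C)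
    (hf : Function.Injective f) (hg : Function.Surjective g) (hex : Function.Exact f g) :
    finrank k B = finrank k A + finrank k C := by
  rw [ecga_finrank_eq_range_add_range f g hex, LinearMap.finrank_range_of_inj hf,
    LinearMap.range_eq_top.2 hg, finrank_top]

end Linear

variable {k : Type u} [Field k] {G : Type u} [Group G]

section Inv

variable {V₁ V V₂ : Type*} [AddCommGroup V₁] [Module k V₁] [AddCommGroup V] [Module k V]
  [AddCommGroup V₂] [Module k V₂] {ρ₁ : Representation k G V₁} {ρ : Representation k G V}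
  {ρ₂ : Representation k G V₂}

theorem ecga_mem_ker_iff {W : Type*} [AddCommGroup W] [Module k W] (σ : Representation k G W)
    (c : G) (w : W) : w ∈ LinearMap.ker (σ c - 1) ↔ σ c w = w := by
  rw [LinearMap.mem_ker, LinearMap.sub_apply, Module.End.one_apply, sub_eq_zero]

/-- `c`-invariants are exact (`c² = 1`, `2 ≠ 0`) -/
theorem ecga_finrank_inv (E : ShortExactRep ρ₁ ρ ρ₂) [FiniteDimensional k V] (c : G)
    (hc : c * c = 1) (h2 : (2 : k) ≠ 0) :
    finrank k ↥(LinearMap.ker (ρ c - 1)) =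
      finrank k ↥(LinearMap.ker (ρ₁ c - 1)) + finrank k ↥(LinearMap.ker (ρ₂ c - 1)) := by
  let f : ↥(LinearMap.ker (ρ₁ c - 1)) →ₗ[k] ↥(LinearMap.ker (ρ c - 1)) :=
    E.i.restrict (fun v hv => by
      rw [ecga_mem_ker_iff] at hv ⊢
      rw [← E.i_equiv, hv])
  let g : ↥(LinearMap.ker (ρ c - 1)) →ₗ[k] ↥(LinearMap.ker (ρ₂ c - 1)) :=
    E.p.restrict (fun v hv => by
      rw [ecga_mem_ker_iff] at hv ⊢
      rw [← E.p_equiv, hv])
  refine ecga_finrank_of_exact f g ?_ ?_ ?_
  · intro v v' hvv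
    exact Subtype.ext (E.i_inj (congrArg Subtype.val hvv))
  · intro w
    have hw : ρ₂ c (w : V₂) = w := (ecga_mem_ker_iff ρ₂ c _).1 w.2
    obtain ⟨v, hv⟩ := E.p_surj (w : V₂)
    have hcc : ρ c (ρ c v) = v := by
      rw [← Module.End.mul_apply, ← map_mul, hc, map_one, Module.End.one_apply]
    refine ⟨⟨(2 : k)⁻¹ • (v + ρ c v), ?_⟩, ?_⟩
    · rw [ecga_mem_ker_iff, map_smul, map_add, hcc, add_comm]
    · apply Subtype.ext
      show E.p ((2 : k)⁻¹ • (v + ρ c v)) = w
      rw [map_smul, map_add, E.p_equiv, hv, hw, ← two_smul k (w : V₂), smul_smul,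
        inv_mul_cancel₀ h2, one_smul]
  · intro v
    constructor
    · intro hv
      have hpv : E.p (v : V) = 0 := congrArg Subtype.val hv
      have hv' : ρ c (v : V) = v := (ecga_mem_ker_iff ρ c _).1 v.2
      refine ⟨⟨E.t (v : V), ?_⟩, Subtype.ext (E.i_t_of_p_eq_zero hpv)⟩
      rw [ecga_mem_ker_iff]
      apply E.i_inj
      rw [E.i_equiv, E.i_t_of_p_eq_zero hpv, hv']
    · rintro ⟨v₁, rfl⟩
      exact Subtype.ext (E.p_i _)

end Inv

/-- **EC-ADD** (abstract). -/
theorem ecg_ecdAdd (𝓛 : Levels G) (c : G) (hc : c * c = 1) (h2 : (2 : k) ≠ 0)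
    (hfin : ∀ (V : Type u) [AddCommGroup V] [Module k V] [FiniteDimensional k V]
      (ρ : Representation k G V), IsSmoothRep 𝓛 ρ →
      FiniteDimensional k (smH1 𝓛 ρ) ∧ FiniteDimensional k (smH2 𝓛 ρ))
    (h3 : ∀ (V : Type u) [AddCommGroup V] [Module k V] [FiniteDimensional k V]
      (ρ : Representation k G V), IsSmoothRep 𝓛 ρ → ∀ x : smH3 𝓛 ρ, x = 0) :
    EcdAdd 𝓛 (fun (V : Type u) [AddCommGroup V] [Module k V] (ρ : Representation k G V) =>
      ecgE 𝓛 c V ρ) := by
  intro V₁ V V₂ _ _ _ _ _ _ _ _ _ ρ₁ ρ ρ₂ h₁ h h₂ E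
  obtain ⟨f1₁, f2₁⟩ := hfin V₁ ρ₁ h₁
  obtain ⟨f1, f2⟩ := hfin V ρ h
  obtain ⟨f1₂, f2₂⟩ := hfin V₂ ρ₂ h₂
  -- the long exact sequence
  have e1 := ecga_finrank_eq_range_add_range _ _ (exact_smH0map_smH0map E)
  have e2 := ecga_finrank_eq_range_add_range _ _ (exact_smH0map_conn0 (𝓛 := 𝓛) E h₁ h)
  have e3 := ecga_finrank_eq_range_add_range _ _ (exact_conn0_smH1map (𝓛 := 𝓛) E h₁ h)
  have e4 := ecga_finrank_eq_range_add_range _ _ (exact_smH1map_smH1map (𝓛 := 𝓛) E h)
  have e5 := ecga_finrank_eq_range_add_range _ _ (exact_smH1map_conn1 (𝓛 := 𝓛) E h₁ h)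
  have e6 := ecga_finrank_eq_range_add_range _ _ (exact_conn1_smH2map (𝓛 := 𝓛) E h₁ h)
  have e7 := ecga_finrank_eq_range_add_range _ _ (exact_smH2map_smH2map (𝓛 := 𝓛) E h)
  have hinj0 : Function.Injective (smH0map E.i E.i_equiv) := by
    intro m m' hmm
    exact Subtype.ext (E.i_inj (congrArg Subtype.val hmm))
  have e0 := LinearMap.finrank_range_of_inj hinj0
  have hsurj2 := smH2map_surjective_of_cd2 E h₁ h (h3 V₁ ρ₁ h₁)
  have e8 : finrank k ↥(LinearMap.range (smH2map 𝓛 E.p E.p_equiv)) = finrank k (smH2 𝓛 ρ₂) := by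
    rw [LinearMap.range_eq_top.2 hsurj2, finrank_top]
  have eV := ecga_finrank_of_exact E.i E.p E.i_inj E.p_surj E.exact
  have eC := ecga_finrank_inv E c hc h2
  simp only [ecgE]
  omega

end Fermat.Agent.S56
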