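import Fermat.Agent.S56.Ec.Defs
import Fermat.Agent.S55.SM.ShapiroIso

/-!
# S56 / EC: restriction of scalars `k'/k` and Shapiro for the base case of the Euler characteristic

`k'` a finite extension of the field `k`, `ψ : H →* k'ˣ`.  The `k`-representation `ecdChar k ψ` on
`k'` and the `k'`-representation `chiRep ψ` have the same cocycles, so
`finrank k (smHⁱ 𝓛 (ecdChar k ψ)) = [k' : k] * finrank k' (smHⁱ 𝓛 (chiRep ψ))`; likewise for the
induced modules and their `c`-invariants.  Together with Shapiro's lemma this reduces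
`ecgE 𝓛 c (Ind_H (ecdChar k ψ)) = 0` to the formula over `k'` on `H` (`ecg_base_of_formula`).
-/

set_option autoImplicit false
set_option linter.style.haveILetI false

namespace Fermat.Agent.S56

open Fermat.Agent.S55 Module

universe u

section Abstract

variable {S R M : Type*} [Field S] [Field R] [Algebra S R] [AddCommGroup M] [Module R M]
  [Module S M] [IsScalarTower S R M]

/-- a submodule over `R` and the same set as a submodule over `S` -/
theorem ecgs_finrank_sub (Z : Submodule S M) (Z' : Submodule R M) (hZ : ∀ x, x ∈ Z ↔ x ∈ Z') :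
    finrank S ↥Z = finrank S R * finrank R ↥Z' := by
  have h1 : Z = Z'.restrictScalars S := Submodule.ext hZ
  subst h1
  rw [Module.finrank_mul_finrank S R ↥Z']
  exact LinearEquiv.finrank_eq ((Submodule.restrictScalarsEquiv S R M Z').restrictScalars S)

/-- a subquotient over `R` and the same subquotient over `S` -/
theorem ecgs_finrank_quot (Z B : Submodule S M) (Z' B' : Submodule R M)
    (hZ : ∀ x, x ∈ Z ↔ x ∈ Z') (hB : ∀ x, x ∈ B ↔ x ∈ B') :
    finrank S (↥Z ⧸ B.comap Z.subtype) =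
      finrank S R * finrank R (↥Z' ⧸ B'.comap Z'.subtype) := by
  rw [Module.finrank_mul_finrank S R (↥Z' ⧸ B'.comap Z'.subtype)]
  -- the `S`-linear map `Z → Z'/B'`
  let φ : ↥Z →ₗ[S] (↥Z' ⧸ B'.comap Z'.subtype) :=
    { toFun := fun x => Submodule.Quotient.mk ⟨x.1, (hZ _).1 x.2⟩
      map_add' := fun x y => rfl
      map_smul' := fun c x => rfl }
  have hsurj : Function.Surjective φ := by
    intro y
    obtain ⟨z, rfl⟩ := Submodule.mkQ_surjective _ y
    exact ⟨⟨z.1, (hZ _).2 z.2⟩, rfl⟩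
  have hker : LinearMap.ker φ = B.comap Z.subtype := by
    ext x
    rw [LinearMap.mem_ker]
    show Submodule.Quotient.mk _ = 0 ↔ _
    rw [Submodule.Quotient.mk_eq_zero, Submodule.mem_comap, Submodule.mem_comap]
    exact (hB _).symm
  exact LinearEquiv.finrank_eq
    ((Submodule.quotEquivOfEq _ _ hker.symm).trans (φ.quotKerEquivOfSurjective hsurj))

end Abstract

section Char

variable {k : Type*} [Field k] {k' : Type*} [Field k'] [Algebra k k'] {G : Type*} [Group G]
  (𝓛 : Levels G) (ψ : G →* k'ˣ)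

theorem ecgs_dd0 (m : k') : dd0 (ecdChar k ψ) m = dd0 (chiRep ψ) m := by
  funext g
  simp only [dd0_apply, ecdChar_apply, chiRep_apply]

theorem ecgs_dd1 (f : G → k') : dd1 (ecdChar k ψ) f = dd1 (chiRep ψ) f := by
  funext ⟨g, h⟩
  simp only [dd1_apply, ecdChar_apply, chiRep_apply]

theorem ecgs_dd2 (f : G × G → k') : dd2 (ecdChar k ψ) f = dd2 (chiRep ψ) f := by
  funext ⟨g, h, j⟩
  simp only [dd2_apply, ecdChar_apply, chiRep_apply]

/-- `H⁰` -/
theorem ecgs_finrank_smH0 :
    finrank k ↥(smH0 (ecdChar k ψ)) = finrank k k' * finrank k' ↥(smH0 (chiRep ψ)) := by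
  refine ecgs_finrank_sub _ _ (fun x => ?_)
  show dd0 (ecdChar k ψ) x = 0 ↔ dd0 (chiRep ψ) x = 0
  rw [ecgs_dd0]

/-- `H¹` -/
theorem ecgs_finrank_smH1 :
    finrank k (smH1 𝓛 (ecdChar k ψ)) = finrank k k' * finrank k' (smH1 𝓛 (chiRep ψ)) := by
  refine ecgs_finrank_quot _ _ _ _ (fun x => ?_) (fun x => ?_)
  · rw [mem_smZ1, mem_smZ1, ecgs_dd1]
  · rw [mem_smB1, mem_smB1]
    simp only [ecgs_dd0]

/-- `H²` -/
theorem ecgs_finrank_smH2 :
    finrank k (smH2 𝓛 (ecdChar k ψ)) = finrank k k' * finrank k' (smH2 𝓛 (chiRep ψ)) := by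
  refine ecgs_finrank_quot _ _ _ _ (fun x => ?_) (fun x => ?_)
  · rw [mem_smZ2, mem_smZ2, ecgs_dd2]
  · rw [mem_smB2, mem_smB2]
    simp only [ecgs_dd1]

end Char

section Ind

variable {k : Type*} [Field k] {k' : Type*} [Field k'] [Algebra k k'] {G : Type*} [Group G]
  (H : Subgroup G) (ψ : ↥H →* k'ˣ)

/-- the induced module -/
theorem ecgs_finrank_indSpace :
    finrank k ↥(indSpace H (ecdChar k ψ)) =
      finrank k k' * finrank k' ↥(indSpace H (chiRep ψ)) := by
  refine ecgs_finrank_sub _ _ (fun x => ?_)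
  rw [mem_indSpace, mem_indSpace]
  simp only [ecdChar_apply, chiRep_apply]

/-- the `c`-invariants of the induced module, as a submodule of `G → k'` -/
def ecgsInv {R : Type*} [CommRing R] {W : Type*} [AddCommGroup W] [Module R W]
    (σ : Representation R ↥H W) (c : G) : Submodule R (G → W) where
  carrier := {f | f ∈ indSpace H σ ∧ ∀ g, f (g * c) = f g}
  add_mem' := by
    rintro f f' ⟨hf, hf2⟩ ⟨hf', hf2'⟩
    exact ⟨(indSpace H σ).add_mem hf hf', fun g => by
      simp only [Pi.add_apply, hf2 g, hf2' g]⟩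
  zero_mem' := ⟨(indSpace H σ).zero_mem, fun _ => rfl⟩
  smul_mem' := by
    rintro a f ⟨hf, hf2⟩
    exact ⟨(indSpace H σ).smul_mem a hf, fun g => by
      simp only [Pi.smul_apply, hf2 g]⟩

theorem ecgs_finrank_ker_eq_inv {R : Type*} [Field R] {W : Type*} [AddCommGroup W] [Module R W]
    (σ : Representation R ↥H W) (c : G) :
    finrank R ↥(LinearMap.ker (indRep H σ c - 1)) = finrank R ↥(ecgsInv H σ c) := by
  refine LinearEquiv.finrank_eq
    { toFun := fun F => ⟨F.1.1, F.1.2, fun g => ?_⟩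
      map_add' := fun _ _ => rfl
      map_smul' := fun _ _ => rfl
      invFun := fun f => ⟨⟨f.1, f.2.1⟩, ?_⟩
      left_inv := fun _ => rfl
      right_inv := fun _ => rfl }
  · have h1 := F.2
    rw [LinearMap.mem_ker, LinearMap.sub_apply, Module.End.one_apply, sub_eq_zero] at h1
    have h2 := congrArg (fun F' : ↥(indSpace H σ) => F'.1 g) h1
    exact h2
  · rw [LinearMap.mem_ker, LinearMap.sub_apply, Module.End.one_apply, sub_eq_zero]
    apply Subtype.ext
    funext g
    exact f.2.2 g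

/-- the `c`-invariants of the induced module -/
theorem ecgs_finrank_ker (c : G) :
    finrank k ↥(LinearMap.ker (indRep H (ecdChar k ψ) c - 1)) =
      finrank k k' * finrank k' ↥(LinearMap.ker (indRep H (chiRep ψ) c - 1)) := by
  rw [ecgs_finrank_ker_eq_inv, ecgs_finrank_ker_eq_inv]
  refine ecgs_finrank_sub _ _ (fun x => ?_)
  show (x ∈ indSpace H (ecdChar k ψ) ∧ _) ↔ (x ∈ indSpace H (chiRep ψ) ∧ _)
  rw [mem_indSpace, mem_indSpace]
  simp only [ecdChar_apply, chiRep_apply]

end Ind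

section Reduction

variable {k : Type u} [Field k] {G : Type u} [Group G]

/-- **Reduction of the base case to the formula over `k'` on `H`.** -/
theorem ecg_base_of_formula (𝓛 : Levels G) (c : G) (H : Subgroup G) (hH : 𝓛.IsOpen H)
    (k' : Type u) [Field k'] [Algebra k k'] (ψ : ↥H →* k'ˣ)
    (hformula : (finrank k' ↥(smH0 (chiRep ψ)) : ℤ) + (finrank k' (smH2 (𝓛.sub H) (chiRep ψ)) : ℤ) +
        (finrank k' ↥(indSpace H (chiRep ψ)) : ℤ) =
      (finrank k' (smH1 (𝓛.sub H) (chiRep ψ)) : ℤ) +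
        (finrank k' ↥(LinearMap.ker (indRep H (chiRep ψ) c - 1)) : ℤ)) :
    ecgE 𝓛 c ↥(indSpace H (ecdChar k ψ)) (indRep H (ecdChar k ψ)) = 0 := by
  have e0 : finrank k ↥(smH0 (indRep H (ecdChar k ψ))) =
      finrank k k' * finrank k' ↥(smH0 (chiRep ψ)) := by
    rw [LinearEquiv.finrank_eq (smShapiro0 H (ecdChar k ψ)), ecgs_finrank_smH0]
  have e1 : finrank k (smH1 𝓛 (indRep H (ecdChar k ψ))) =
      finrank k k' * finrank k' (smH1 (𝓛.sub H) (chiRep ψ)) := by
    rw [LinearEquiv.finrank_eq (smShapiro1 𝓛 (ecdChar k ψ) hH), ecgs_finrank_smH1]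
  have e2 : finrank k (smH2 𝓛 (indRep H (ecdChar k ψ))) =
      finrank k k' * finrank k' (smH2 (𝓛.sub H) (chiRep ψ)) := by
    rw [LinearEquiv.finrank_eq (smShapiro2 𝓛 (ecdChar k ψ) hH), ecgs_finrank_smH2]
  have e3 := ecgs_finrank_indSpace (k := k) H ψ
  have e4 := ecgs_finrank_ker (k := k) H ψ c
  simp only [ecgE]
  rw [e0, e1, e2, e3, e4]
  push_cast
  linear_combination (finrank k k' : ℤ) * hformula

end Reduction

end Fermat.Agent.S56
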