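import Fermat.Agent.S56.Ec.Arch
import Fermat.Agent.S56.Gec.Main
import Fermat.Agent.S56.Top.H0

/-!
# S56 / EC: the base case over `k'` (EC-BASE) from helper9's `gec_main` (package GEC)

`gec_main` gives, for representatives `R` of `H \ G_ℚ / ⟨c⟩`,
`h⁰ + h² + #{t ∈ R | t c t⁻¹ ∈ H → ψ*(t c t⁻¹) = 1} = h¹` (`ψ* = ω ψ⁻¹`).  For `x = t c t⁻¹ ∈ H`
one has `x² = 1`, `ω(x) = ω(c) = -1`, so `ψ*(x) = 1 ↔ ψ(x) = -1 ↔ ψ(x) ≠ 1` (`p` odd).  Hence the count
is `#{complex places} + #{real places with ψ(c_v) ≠ 1}`, which `Ec/Arch.lean` (`ecg_formula_of_count`)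
identifies with `dim Ind_H ψ - dim (Ind_H ψ)^c`.
-/

set_option autoImplicit false
set_option linter.style.haveILetI false

namespace Fermat.Agent.S56

open Fermat.Agent.S55 ExtCitation Module

variable {p : ℕ} [Fact p.Prime]

/-- for an involution `x ∈ H` conjugate to `c`: `ψ*(x) = 1 ↔ ψ(x) ≠ 1` -/
theorem ecgb_star_eq_one_iff (hp2 : p ≠ 2) {H : Subgroup GQ} {k' : Type} [Field k']
    [Algebra (ZMod p) k'] (ψ : ↥H →* k'ˣ) (t : GQ)
    (hx : t * complexConjugation * t⁻¹ ∈ H) :
    gecStar p ψ ⟨t * complexConjugation * t⁻¹, hx⟩ = 1 ↔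
      ψ ⟨t * complexConjugation * t⁻¹, hx⟩ ≠ 1 := by
  have hp : p.Prime := Fact.out
  haveI : CharP k' p := by
    haveI : Nontrivial k' := inferInstance
    exact charP_of_injective_algebraMap (algebraMap (ZMod p) k').injective p
  have h2 : (2 : k') ≠ 0 := by
    intro h
    have h1 : ((2 : ℕ) : k') = 0 := by exact_mod_cast h
    rw [CharP.cast_eq_zero_iff k' p] at h1
    exact hp2 ((Nat.prime_dvd_prime_iff_eq hp Nat.prime_two).1 h1)
  have h11 : (1 : k') ≠ -1 := by
    intro h
    apply h2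
    have : (1 : k') + 1 = 0 := by nth_rewrite 1 [h]; exact neg_add_cancel 1
    rw [← this]; norm_num
  set x : ↥H := ⟨t * complexConjugation * t⁻¹, hx⟩ with hxdef
  -- `x² = 1`
  have hxx : x * x = 1 := by
    apply Subtype.ext
    show t * complexConjugation * t⁻¹ * (t * complexConjugation * t⁻¹) = 1
    have : t * complexConjugation * t⁻¹ * (t * complexConjugation * t⁻¹) =
        t * (complexConjugation * complexConjugation) * t⁻¹ := by group
    rw [this, complexConjugation_mul_self, mul_one, mul_inv_cancel]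
  have hψ2 : ((ψ x : k'ˣ) : k') * ((ψ x : k'ˣ) : k') = 1 := by
    rw [← Units.val_mul, ← map_mul, hxx, map_one, Units.val_one]
  -- `ω(x) = -1`
  have hω : ((gecOmega p k' (x : GQ) : k'ˣ) : k') = -1 := by
    rw [gecOmega_apply]
    have h1 : cycloChar p (x : GQ) = cycloChar p complexConjugation := by
      show cycloChar p (t * complexConjugation * t⁻¹) = _
      rw [map_mul, map_mul, map_inv, mul_comm, ← mul_assoc, inv_mul_cancel, one_mul]
    rw [h1, s56h0_cycloChar_conj, map_neg, map_one]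
  have hstar : ((gecStar p ψ x : k'ˣ) : k') = - (((ψ x)⁻¹ : k'ˣ) : k') := by
    rw [gecStar_apply, Units.val_mul, hω, neg_one_mul]
  have hinv : (((ψ x)⁻¹ : k'ˣ) : k') = ((ψ x : k'ˣ) : k') := by
    rw [Units.val_inv_eq_inv_val]
    exact inv_eq_of_mul_eq_one_left hψ2
  rw [Ne, ← Units.val_inj, ← Units.val_inj (a := ψ x), hstar, hinv, Units.val_one]
  rcases mul_self_eq_one_iff.1 hψ2 with h | h
  · rw [h]
    constructor
    · intro h'
      exact absurd h'.symm h11
    · intro h'
      exact absurd rfl h'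
  · rw [h, neg_neg]
    constructor
    · intro _ h'
      exact h11 h'.symm
    · intro _
      rfl

/-- **EC-BASE** (= GEC). -/
theorem ecg_base_formula (hp2 : p ≠ 2) (S : Finset Nat.Primes) (hpS : pPrime p ∈ S)
    (H : Subgroup GQ) (hH : (levelsS S).IsOpen H) (k' : Type) [Field k'] [Algebra (ZMod p) k']
    [FiniteDimensional (ZMod p) k'] (ψ : ↥H →* k'ˣ)
    (hψ : ∃ U, (levelsS S).IsLevel U ∧ ∀ h : ↥H, (h : GQ) ∈ U → ψ h = 1) :
    (finrank k' ↥(smH0 (chiRep ψ)) : ℤ) +
        (finrank k' (smH2 ((levelsS S).sub H) (chiRep ψ)) : ℤ) +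
        (finrank k' ↥(indSpace H (chiRep ψ)) : ℤ) =
      (finrank k' (smH1 ((levelsS S).sub H) (chiRep ψ)) : ℤ) +
        (finrank k' ↥(LinearMap.ker (indRep H (chiRep ψ) complexConjugation - 1)) : ℤ) := by
  classical
  haveI : H.FiniteIndex := dev_finiteIndex_of_isOpen (levelsS S) H hH
  have hc : complexConjugation * complexConjugation = 1 := complexConjugation_mul_self
  obtain ⟨T, _, rep, hrep⟩ :=
    ecga_exists_dcReps H (Subgroup.zpowers complexConjugation).subtype
  -- `rep` is injective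
  have hinj : Function.Injective rep := by
    intro s s' hss
    obtain ⟨t, -, huniq⟩ := hrep (rep s)
    have e1 : s = t := huniq s ⟨1, 1, by simp⟩
    have e2 : s' = t := huniq s' ⟨1, 1, by simp [hss]⟩
    rw [e1, e2]
  set R : Finset GQ := Finset.univ.image rep with hRdef
  have hR : ∀ g : GQ, ∃! t, t ∈ R ∧ ∃ h ∈ H, ∃ c ∈ Subgroup.zpowers complexConjugation,
      g = h * t * c := by
    intro g
    obtain ⟨s, ⟨h, γ, hg⟩, huniq⟩ := hrep g
    refine ⟨rep s, ⟨Finset.mem_image.2 ⟨s, Finset.mem_univ _, rfl⟩, h, h.2, γ, γ.2, hg⟩, ?_⟩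
    rintro t' ⟨ht', h', hh', c', hc', hg'⟩
    obtain ⟨s', -, rfl⟩ := Finset.mem_image.1 ht'
    rw [huniq s' ⟨⟨h', hh'⟩, ⟨c', hc'⟩, hg'⟩]
  obtain ⟨h1f, h2f, hform⟩ := gec_main S hp2 hpS hH ψ hψ R hR
  refine ecg_formula_of_count (levelsS S) H complexConjugation ψ
    (Subgroup.zpowers complexConjugation).subtype rep
    (ecga_zpowers_range complexConjugation hc) hrep ?_
  -- the count
  have hcard : (R.filter (fun t => ∀ hc : t * complexConjugation * t⁻¹ ∈ H,
      gecStar p ψ ⟨t * complexConjugation * t⁻¹, hc⟩ = 1)).card =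
      Nat.card {s : T // rep s * complexConjugation * (rep s)⁻¹ ∉ H} +
      Nat.card {s : T // ∃ h : rep s * complexConjugation * (rep s)⁻¹ ∈ H, ψ ⟨_, h⟩ ≠ 1} := by
    rw [hRdef, Finset.filter_image, Finset.card_image_of_injective _ hinj,
      Nat.card_eq_fintype_card, Nat.card_eq_fintype_card, Fintype.card_subtype,
      Fintype.card_subtype, ← Finset.card_union_of_disjoint]
    · congr 1
      ext s
      simp only [Finset.mem_filter, Finset.mem_univ, true_and, Finset.mem_union]
      constructor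
      · intro h
        by_cases hx : rep s * complexConjugation * (rep s)⁻¹ ∈ H
        · exact Or.inr ⟨hx, (ecgb_star_eq_one_iff hp2 ψ (rep s) hx).1 (h hx)⟩
        · exact Or.inl hx
      · rintro (h | ⟨hx, h⟩) hx'
        · exact absurd hx' h
        · exact (ecgb_star_eq_one_iff hp2 ψ (rep s) hx').2 h
    · rw [Finset.disjoint_left]
      intro s hs hs'
      simp only [Finset.mem_filter, Finset.mem_univ, true_and] at hs hs'
      obtain ⟨hx, -⟩ := hs'
      exact hs hx
  have hform' := hform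
  rw [hcard] at hform'
  push_cast [← hform']
  ring

end Fermat.Agent.S56
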