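import Fermat.Agent.S55.Asm.TrivSpec

/-!
# S56 / EC-BFIN (row 399): `H¹(H, 𝔽_p)`, `H²(H, 𝔽_p)` are finite for `H ≤ ker ω` open in `G_S`

`ecgbf_of_critTriv` (abstract): from the `CritTriv` package of S55 over a FINITE index set of
places, `smH1` and `smH2` of the base are finite-dimensional:
* `H¹`: `ker (locP1) = Ш¹` is finite (`b2f`), the image lies in the finite product `P¹` (`b1f`);
* `H²`: `ker (locP2) = Ш²` is finite (`b2f2`), the image lies in `P² = ∏_w H²_w`, which embeds in
  `ι' → k` by `c ↦ (w ↦ inv (δ_w • c))` (`a1`: each `inv_w` is injective).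

`ecg_base_finite`: the statement of `S56/Ec/Spec.lean`, from `asm_critTriv` and
`exists_isDoubleCosetReps`.
-/

set_option autoImplicit false
set_option linter.style.haveILetI false

namespace Fermat.Agent.S56

open Fermat.Agent.S55 ExtCitation

section Abstract

variable {k : Type*} [Field k] {G' : Type*} [Group G'] {𝓛' : Levels G'}
  {ι' : Type*} {Γ' : ι' → Type*} [∀ w, Group (Γ' w)]

/-- a module with a finite-dimensional kernel and a map into a finite-dimensional space is
finite-dimensional. -/
theorem ecgbf_finiteDimensional_of_ker {M N : Type*} [AddCommGroup M] [Module k M]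
    [AddCommGroup N] [Module k N] (f : M →ₗ[k] N) [FiniteDimensional k N]
    (hker : FiniteDimensional k ↥(LinearMap.ker f)) : FiniteDimensional k M := by
  haveI : FiniteDimensional k (M ⧸ LinearMap.ker f) :=
    Module.Finite.equiv f.quotKerEquivRange.symm
  exact Module.Finite.of_submodule_quotient (LinearMap.ker f)

set_option maxSynthPendingDepth 3 in
/-- `P²` is finite-dimensional: it embeds in `ι' → k` by the local invariants. -/
theorem ecgbf_finiteDimensional_P2 [Finite ι'] (D' : LocSys 𝓛' ι' Γ')
    (ρ₀ : Representation k G' k)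
    (inv : (∀ w, smH2 (D'.lev w) (D'.rep ρ₀ w)) →ₗ[k] k)
    (a1 : ∀ c : ∀ w, smH2 (D'.lev w) (D'.rep ρ₀ w),
      (∀ a : ι' → k, inv (fun w => a w • c w) = 0) → c = 0) :
    FiniteDimensional k (∀ w, smH2 (D'.lev w) (D'.rep ρ₀ w)) := by
  classical
  cases nonempty_fintype ι'
  -- the map `c ↦ (w ↦ inv (δ_w • c))`
  let Φ : (∀ w, smH2 (D'.lev w) (D'.rep ρ₀ w)) →ₗ[k] (ι' → k) :=
    { toFun := fun c w => inv (fun w' => (if w' = w then (1 : k) else 0) • c w')
      map_add' := by
        intro c c'
        ext w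
        simp only [Pi.add_apply, smul_add]
        rw [← map_add]
        rfl
      map_smul' := by
        intro r c
        ext w
        simp only [Pi.smul_apply, RingHom.id_apply, smul_eq_mul]
        rw [← smul_eq_mul, ← map_smul]
        congr 1
        ext w'
        simp only [Pi.smul_apply, smul_comm r] }
  have hΦ : Function.Injective Φ := by
    rw [← LinearMap.ker_eq_bot, LinearMap.ker_eq_bot']
    intro c hc
    apply a1
    intro a
    have h1 : (fun w => a w • c w) =
        ∑ w : ι', a w • (fun w' => (if w' = w then (1 : k) else 0) • c w') := by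
      ext w'
      rw [Finset.sum_apply]
      simp only [Pi.smul_apply, ite_smul, one_smul, zero_smul, smul_ite, smul_zero]
      rw [Finset.sum_ite_eq Finset.univ w' (fun w => a w • c w')]
      simp
    rw [h1, map_sum]
    refine Finset.sum_eq_zero fun w _ => ?_
    rw [map_smul]
    have := congrFun hc w
    change inv (fun w' => (if w' = w then (1 : k) else 0) • c w') = 0 at this
    rw [this, smul_zero]
  exact Module.Finite.of_injective Φ hΦ

set_option maxSynthPendingDepth 3 in
/-- ABSTRACT EC-BFIN: `CritTriv` over a finite set of places ⟹ `H¹`, `H²` of the base are finite. -/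
theorem ecgbf_of_critTriv [Finite ι'] (D' : LocSys 𝓛' ι' Γ') (ρ₀ : Representation k G' k)
    (inv : (∀ w, smH2 (D'.lev w) (D'.rep ρ₀ w)) →ₗ[k] k) (h : CritTriv D' ρ₀ inv) :
    FiniteDimensional k (smH1 𝓛' ρ₀) ∧ FiniteDimensional k (smH2 𝓛' ρ₀) := by
  constructor
  · haveI := h.b1f
    exact ecgbf_finiteDimensional_of_ker (locP1 D' (ρ := ρ₀)) h.b2f
  · haveI := ecgbf_finiteDimensional_P2 D' ρ₀ inv h.a1
    exact ecgbf_finiteDimensional_of_ker (locP2 D' (ρ := ρ₀)) h.b2f2

end Abstract

section Concrete

variable {p : ℕ} [Fact p.Prime]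

set_option maxSynthPendingDepth 3 in
/-- **EC-BFIN.** -/
theorem ecg_base_finite (hp2 : p ≠ 2) (S : Finset Nat.Primes) (hpS : pPrime p ∈ S)
    (H : Subgroup GQ) (hH : (levelsS S).IsOpen H) (hHχ : H ≤ (cycloChar p).ker) :
    FiniteDimensional (ZMod p) (smH1 ((levelsS S).sub H) (trivRep (k := ZMod p) H)) ∧
    FiniteDimensional (ZMod p) (smH2 ((levelsS S).sub H) (trivRep (k := ZMod p) H)) := by
  obtain ⟨T, hT⟩ := exists_isDoubleCosetReps (locSysS S) H hH
  exact ecgbf_of_critTriv (locSysMackey (locSysS S) H T) (trivRep (k := ZMod p) H)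
    (asmInv p S H T) (asm_critTriv hp2 S hpS H hH hHχ T hT)

end Concrete

end Fermat.Agent.S56
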