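import Fermat.Agent.S56.Ec.Defs
import Fermat.Agent.S56.EcDev.Basic
import Fermat.Agent.S55.SM.ShapiroIso

/-!
# S56 / EC, leaf EC-FIN: finiteness of smooth cohomology by dimension shifting

`ecg_finite_of_base`: if `smH1`, `smH2` of the trivial module `k` are finite-dimensional for every
open subgroup `H ≤ ker χ`, then `smH1 𝓛 ρ`, `smH2 𝓛 ρ` are finite-dimensional for every
finite-dimensional smooth `ρ`.

Proof: choose a normal level `H ≤ ker χ` acting trivially on `V`; `V ↪ Ind_H^G Res V =: I` with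
cokernel `C`; `Hⁱ(G, I) = Hⁱ(H, Res V)` (Shapiro) is finite since `Res V` is a successive extension
of trivial modules `k`; `H⁰(C) → H¹(V) → H¹(I)` gives `H¹` finite for all `V`; then
`H¹(C) → H²(V) → H²(I)` gives `H²`.
-/

set_option autoImplicit false
set_option linter.style.haveILetI false

namespace Fermat.Agent.S56

open Fermat.Agent.S55 Module

universe u

section Linear

variable {k : Type*} [Field k] {A B C : Type*} [AddCommGroup A] [Module k A] [AddCommGroup B]
  [Module k B] [AddCommGroup C] [Module k C]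

/-- the middle term of an exact pair with finite-dimensional ends is finite-dimensional -/
theorem ecgf_finite_of_exact [FiniteDimensional k A] [FiniteDimensional k C] (f : A →ₗ[k] B)
    (g : B →ₗ[k] C) (hex : Function.Exact f g) : FiniteDimensional k B := by
  haveI h1 : Module.Finite k ↥(LinearMap.ker g) := by
    rw [LinearMap.exact_iff.1 hex]
    exact Module.Finite.range f
  haveI h2 : Module.Finite k (B ⧸ LinearMap.ker g) :=
    Module.Finite.equiv (g.quotKerEquivRange).symm
  exact Module.Finite.of_submodule_quotient (LinearMap.ker g)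

end Linear

variable {k : Type u} [Field k]

section General

variable {G : Type u} [Group G] {𝓛 : Levels G}

/-- a quotient of a smooth representation is smooth -/
theorem ecgf_isSmoothRep_quotient {V : Type*} [AddCommGroup V] [Module k V]
    {ρ : Representation k G V} (h : IsSmoothRep 𝓛 ρ) (W : Submodule k V)
    (hW : ∀ g, W ≤ W.comap (ρ g)) : IsSmoothRep 𝓛 (ρ.quotient W hW) := by
  intro x
  obtain ⟨v, rfl⟩ := Submodule.mkQ_surjective W x
  obtain ⟨U, hU, hfix⟩ := h v
  refine ⟨U, hU, fun s hs => ?_⟩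
  show Submodule.mapQ W W (ρ s) (hW s) (Submodule.Quotient.mk v) = Submodule.Quotient.mk v
  rw [Submodule.mapQ_apply, hfix s hs]

/-- finiteness of `smH1`, `smH2` is closed under extensions -/
theorem ecgf_finite_of_ses {V₁ V V₂ : Type*} [AddCommGroup V₁] [Module k V₁] [AddCommGroup V]
    [Module k V] [AddCommGroup V₂] [Module k V₂] {ρ₁ : Representation k G V₁}
    {ρ : Representation k G V} {ρ₂ : Representation k G V₂} (E : ShortExactRep ρ₁ ρ ρ₂)
    (h : IsSmoothRep 𝓛 ρ)
    (f₁ : FiniteDimensional k (smH1 𝓛 ρ₁) ∧ FiniteDimensional k (smH2 𝓛 ρ₁))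
    (f₂ : FiniteDimensional k (smH1 𝓛 ρ₂) ∧ FiniteDimensional k (smH2 𝓛 ρ₂)) :
    FiniteDimensional k (smH1 𝓛 ρ) ∧ FiniteDimensional k (smH2 𝓛 ρ) := by
  haveI := f₁.1
  haveI := f₁.2
  haveI := f₂.1
  haveI := f₂.2
  exact ⟨ecgf_finite_of_exact _ _ (exact_smH1map_smH1map (𝓛 := 𝓛) E h),
    ecgf_finite_of_exact _ _ (exact_smH2map_smH2map (𝓛 := 𝓛) E h)⟩

/-- a representation with trivial action is smooth -/
theorem ecgf_isSmoothRep_of_trivial {W : Type*} [AddCommGroup W] [Module k W]
    {σ : Representation k G W} (hσ : ∀ g, σ g = 1) : IsSmoothRep 𝓛 σ := by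
  intro w
  obtain ⟨U, hU⟩ := 𝓛.exists_level
  exact ⟨U, hU, fun s _ => by rw [hσ s]; rfl⟩

/-- finiteness for modules with trivial action, from the trivial module `k` -/
theorem ecgf_finite_of_trivial
    (hb : FiniteDimensional k (smH1 𝓛 (1 : Representation k G k)) ∧
      FiniteDimensional k (smH2 𝓛 (1 : Representation k G k))) :
    ∀ (n : ℕ) (W : Type u) [AddCommGroup W] [Module k W] [FiniteDimensional k W]
      (σ : Representation k G W), finrank k W = n → (∀ g, σ g = 1) →
      FiniteDimensional k (smH1 𝓛 σ) ∧ FiniteDimensional k (smH2 𝓛 σ) := by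
  intro n
  induction n with
  | zero =>
    intro W _ _ _ σ hn _
    haveI : Subsingleton W := Module.finrank_zero_iff.1 hn
    exact ⟨Module.Finite.of_finite, Module.Finite.of_finite⟩
  | succ n ih =>
    intro W _ _ _ σ hn hσ
    obtain ⟨w, hw⟩ := Module.finrank_pos_iff_exists_ne_zero.1 (by omega : 0 < finrank k W)
    let i : k →ₗ[k] W := LinearMap.toSpanSingleton k W w
    have hi : Function.Injective i := by
      intro a b hab
      have h1 : (a - b) • w = 0 := by
        rw [sub_smul]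
        exact sub_eq_zero.2 hab
      rcases smul_eq_zero.1 h1 with h | h
      · exact sub_eq_zero.1 h
      · exact absurd h hw
    have hstab : ∀ g, LinearMap.range i ≤ (LinearMap.range i).comap (σ g) := by
      intro g x hx
      rw [Submodule.mem_comap, hσ g]
      exact hx
    have hq : ∀ g, σ.quotient (LinearMap.range i) hstab g = 1 := by
      intro g
      apply LinearMap.ext
      intro x
      obtain ⟨v, rfl⟩ := Submodule.mkQ_surjective _ x
      show Submodule.mapQ _ _ (σ g) (hstab g) (Submodule.Quotient.mk v) = Submodule.Quotient.mk v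
      rw [Submodule.mapQ_apply, hσ g]
      rfl
    have hrk : finrank k (W ⧸ LinearMap.range i) = n := by
      have h1 := Submodule.finrank_quotient_add_finrank (LinearMap.range i)
      rw [LinearMap.finrank_range_of_inj hi, Module.finrank_self] at h1
      omega
    obtain ⟨E, -, -⟩ := ShortExactRep.exists_of_exact (ρ₁ := (1 : Representation k G k))
      (ρ := σ) (ρ₂ := σ.quotient (LinearMap.range i) hstab) i (LinearMap.range i).mkQ
      (fun g c => by rw [hσ g]; rfl) (fun g v => rfl) hi (Submodule.mkQ_surjective _)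
      (fun x => by
        rw [Submodule.mkQ_apply, Submodule.Quotient.mk_eq_zero]
        rfl)
    exact ecgf_finite_of_ses E (ecgf_isSmoothRep_of_trivial hσ) hb
      (ih (W ⧸ LinearMap.range i) (σ.quotient (LinearMap.range i) hstab) hrk hq)

end General

section Main

variable {G : Type u} [Group G]

/-- the dimension-shifting step -/
theorem ecgf_shift (𝓛 : Levels G) (χ : G →* kˣ) (hχ : ∃ U, 𝓛.IsLevel U ∧ U ≤ χ.ker)
    (hbase : ∀ H : Subgroup G, 𝓛.IsOpen H → H ≤ χ.ker →
      FiniteDimensional k (smH1 (𝓛.sub H) (trivRep (k := k) H)) ∧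
      FiniteDimensional k (smH2 (𝓛.sub H) (trivRep (k := k) H)))
    (V : Type u) [AddCommGroup V] [Module k V] [FiniteDimensional k V]
    (ρ : Representation k G V) (hρ : IsSmoothRep 𝓛 ρ) :
    ∃ (C : Type u) (_ : AddCommGroup C) (_ : Module k C) (_ : FiniteDimensional k C)
      (ρC : Representation k G C), IsSmoothRep 𝓛 ρC ∧ FiniteDimensional k (smH1 𝓛 ρ) ∧
        (FiniteDimensional k (smH1 𝓛 ρC) → FiniteDimensional k (smH2 𝓛 ρ)) := by
  obtain ⟨N₀, hN₀, -, htriv⟩ := hρ.exists_level_trivial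
  obtain ⟨U₃, hU₃, hle₃⟩ := hχ
  obtain ⟨H, hH, -, hHN₀, hHU₃⟩ := 𝓛.exists_normal_le_inf N₀ U₃ hN₀ hU₃
  have hHo : 𝓛.IsOpen H := ⟨H, hH, le_rfl⟩
  haveI : H.FiniteIndex := 𝓛.finiteIndex H hH
  have hσ : ∀ h : ↥H, (ρ.comp H.subtype) h = 1 := fun h => htriv _ (hHN₀ h.2)
  have hσsm : IsSmoothRep (𝓛.sub H) (ρ.comp H.subtype) := ecgf_isSmoothRep_of_trivial hσ
  -- finiteness for `Res V`
  obtain ⟨fH1, fH2⟩ := ecgf_finite_of_trivial (𝓛 := 𝓛.sub H) (hbase H hHo (hHU₃.trans hle₃))
    (finrank k V) V (ρ.comp H.subtype) rfl hσ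
  -- finiteness for `I = Ind Res V` (Shapiro)
  haveI fI1 : FiniteDimensional k (smH1 𝓛 (indRep H (ρ.comp H.subtype))) :=
    Module.Finite.equiv (smShapiro1 𝓛 (ρ.comp H.subtype) hHo).symm
  haveI fI2 : FiniteDimensional k (smH2 𝓛 (indRep H (ρ.comp H.subtype))) :=
    Module.Finite.equiv (smShapiro2 𝓛 (ρ.comp H.subtype) hHo).symm
  haveI : FiniteDimensional k ↥(indSpace H (ρ.comp H.subtype)) :=
    indSpace_finiteDimensional H (ρ.comp H.subtype)
  have hIsm : IsSmoothRep 𝓛 (indRep H (ρ.comp H.subtype)) := indRep_isSmooth H _ 𝓛 hHo hσsm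
  -- the unit `V → I`
  have hι := indUnit_equivariant H ρ
  have hinj : Function.Injective (indUnit H ρ) := by
    intro v v' hvv
    have h1 := congrArg (fun F => F.1 1) hvv
    simpa [indUnit_apply_val] using h1
  have hstab := fun g => ecd_range_le_comap hι g
  obtain ⟨E, -, -⟩ := ShortExactRep.exists_of_exact (ρ₁ := ρ)
    (ρ := indRep H (ρ.comp H.subtype))
    (ρ₂ := (indRep H (ρ.comp H.subtype)).quotient (LinearMap.range (indUnit H ρ)) hstab)
    (indUnit H ρ) (LinearMap.range (indUnit H ρ)).mkQ hι (fun g v => rfl) hinj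
    (Submodule.mkQ_surjective _) (fun x => by
      rw [Submodule.mkQ_apply, Submodule.Quotient.mk_eq_zero]
      rfl)
  have hCsm := ecgf_isSmoothRep_quotient hIsm (LinearMap.range (indUnit H ρ)) hstab
  refine ⟨_, inferInstance, inferInstance, inferInstance, _, hCsm, ?_, fun hC1 => ?_⟩
  · exact ecgf_finite_of_exact _ _ (exact_conn0_smH1map (𝓛 := 𝓛) E hρ hIsm)
  · haveI := hC1
    exact ecgf_finite_of_exact _ _ (exact_conn1_smH2map (𝓛 := 𝓛) E hρ hIsm)

/-- **EC-FIN** (abstract). -/
theorem ecg_finite_of_base (𝓛 : Levels G) (χ : G →* kˣ) (hχ : ∃ U, 𝓛.IsLevel U ∧ U ≤ χ.ker)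
    (hbase : ∀ H : Subgroup G, 𝓛.IsOpen H → H ≤ χ.ker →
      FiniteDimensional k (smH1 (𝓛.sub H) (trivRep (k := k) H)) ∧
      FiniteDimensional k (smH2 (𝓛.sub H) (trivRep (k := k) H)))
    (V : Type u) [AddCommGroup V] [Module k V] [FiniteDimensional k V]
    (ρ : Representation k G V) (hρ : IsSmoothRep 𝓛 ρ) :
    FiniteDimensional k (smH1 𝓛 ρ) ∧ FiniteDimensional k (smH2 𝓛 ρ) := by
  obtain ⟨C, iC1, iC2, iC3, ρC, hCsm, h1, h2⟩ := ecgf_shift 𝓛 χ hχ hbase V ρ hρ
  obtain ⟨C', iC1', iC2', iC3', ρC', -, h1', -⟩ := ecgf_shift 𝓛 χ hχ hbase C ρC hCsm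
  exact ⟨h1, h2 h1'⟩

end Main

end Fermat.Agent.S56
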