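import Fermat.Agent.S55.Top.CdSpec
import Fermat.Agent.S55.Asm.TrivSpec

/-!
# S56 / EC, leaf EC-H3: `H³(G_S, M) = 0` for finite smooth `M` (`p` odd, `p ∈ S`)

`smH3_subsingleton_of_base` (S55 `Top/CdB.lean`, `cd ≤ 2` by dévissage) applied to the base case
`asm_c1` (`H³(H, 𝔽_p) = 0` for open `H ≤ ker ω`).
-/

set_option autoImplicit false

namespace Fermat.Agent.S56

open Fermat.Agent.S55 ExtCitation

variable {p : ℕ} [Fact p.Prime]

/-- **EC-H3.** -/
theorem ecg_h3 (hp2 : p ≠ 2) (S : Finset Nat.Primes) (hpS : pPrime p ∈ S)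
    (V : Type) [AddCommGroup V] [Module (ZMod p) V] [FiniteDimensional (ZMod p) V]
    (ρ : Representation (ZMod p) GQ V) (hρ : IsSmoothRep (levelsS S) ρ)
    (x : smH3 (levelsS S) ρ) : x = 0 := by
  refine smH3_subsingleton_of_base (levelsS S) (cycloChar p) p (cycloChar_smooth S hpS)
    (fun H hH hHχ y => ?_) ρ hρ x
  obtain ⟨a, rfl⟩ := Submodule.mkQ_surjective _ y
  exact (smH3π_eq_zero_iff _ _ a).2 (asm_c1 hp2 S hpS H hH hHχ a.1 a.2)

end Fermat.Agent.S56
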