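import Fermat.Agent.S56.Ec.Defs
import Fermat.Agent.S56.Ec.Add
import Fermat.Agent.S56.Ec.Fin
import Fermat.Agent.S56.Ec.H3
import Fermat.Agent.S56.Ec.BaseFin
import Fermat.Agent.S56.Ec.Scalars
import Fermat.Agent.S56.Ec.Base
import Fermat.Agent.S56.EcDev.Spec

/-!
# S56 / EC: Tate's global Euler characteristic over `ℚ` — ASSEMBLY

Row 359 of the S56 plan (`s56_global_euler_char` of `Top/Spec.lean`) is `ecg_global_euler_char`
below.  It is proved from

* `ecg_finite_of_base` (EC-FIN, `Ec/Fin.lean`): finiteness of `smH1`, `smH2` for all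
  finite-dimensional smooth representations from finiteness for the trivial module on small open
  subgroups (dimension shifting: `V ↪ Ind_H Res V`, Shapiro, the long exact sequence);
* `ecg_ecdAdd` (EC-ADD, `Ec/Add.lean`): additivity of `ecgE` on short exact sequences (long exact
  sequence + finiteness + `H³ = 0` + exactness of `c`-invariants, `c² = 1`, `2 ≠ 0`);
* `ecg_base_finite` (EC-BFIN, helper27, `Ec/BaseFin.lean`): `H¹(H, 𝔽_p)`, `H²(H, 𝔽_p)` finite for
  `H ≤ ker ω` open in `G_S` (from S55's `asm_critTriv`);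
* `ecg_h3` (EC-H3, `Ec/H3.lean`): `H³(G_S, M) = 0` (`smH3_subsingleton_of_base` + `asm_c1`);
* `ecg_base_formula` (EC-BASE, `Ec/Base.lean`, from helper9's `gec_main` = package GEC): the formula
  for characters `ψ : H →* k'ˣ` of open subgroups, over `k'`;
* `ecg_base_of_formula` (`Ec/Scalars.lean`): restriction of scalars `k'/𝔽_p` + Shapiro;
* the dévissage theorem `ecd_devissage` (EC-DEV, `EcDev/`).
-/

set_option autoImplicit false

namespace Fermat.Agent.S56

open Fermat.Agent.S55 ExtCitation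

variable {p : ℕ} [Fact p.Prime]

/-- `EcdBase` for the Euler-characteristic defect over `ℚ`. -/
theorem ecg_base (hp2 : p ≠ 2) (S : Finset Nat.Primes) (hpS : pPrime p ∈ S) :
    EcdBase (levelsS S)
      (fun (V : Type) [AddCommGroup V] [Module (ZMod p) V] (ρ : Representation (ZMod p) GQ V) =>
        ecgE (levelsS S) complexConjugation V ρ) := by
  intro H hH k' _ _ _ ψ hψ
  exact ecg_base_of_formula (levelsS S) complexConjugation H hH k' ψ
    (ecg_base_formula hp2 S hpS H hH k' ψ hψ)

/-- **EC** (row 359; statement = `s56_global_euler_char` of `Top/Spec.lean`). -/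
theorem ecg_global_euler_char (hp2 : p ≠ 2) (S : Finset Nat.Primes) (hpS : pPrime p ∈ S)
    (M : Rep.{0} (ZMod p) GQ) [FiniteDimensional (ZMod p) M]
    (hM : IsSmoothRep (levelsS S) M.ρ) :
    FiniteDimensional (ZMod p) (smH1 (levelsS S) M.ρ) ∧
    FiniteDimensional (ZMod p) (smH2 (levelsS S) M.ρ) ∧
    Module.finrank (ZMod p) ↥(smH0 M.ρ) + Module.finrank (ZMod p) (smH2 (levelsS S) M.ρ) +
        Module.finrank (ZMod p) M =
      Module.finrank (ZMod p) (smH1 (levelsS S) M.ρ) +
        Module.finrank (ZMod p) ↥(LinearMap.ker (M.ρ complexConjugation - 1)) := by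
  have hfin : ∀ (V : Type) [AddCommGroup V] [Module (ZMod p) V] [FiniteDimensional (ZMod p) V]
      (ρ : Representation (ZMod p) GQ V), IsSmoothRep (levelsS S) ρ →
      FiniteDimensional (ZMod p) (smH1 (levelsS S) ρ) ∧
      FiniteDimensional (ZMod p) (smH2 (levelsS S) ρ) := fun V _ _ _ ρ hρ =>
    ecg_finite_of_base (levelsS S) (cycloChar p) (cycloChar_smooth S hpS)
      (ecg_base_finite hp2 S hpS) V ρ hρ
  have h2 : (2 : ZMod p) ≠ 0 := by
    intro h
    have h' : ((2 : ℕ) : ZMod p) = 0 := by exact_mod_cast h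
    rw [ZMod.natCast_eq_zero_iff] at h'
    exact hp2 ((Nat.prime_dvd_prime_iff_eq Fact.out Nat.prime_two).1 h')
  have hadd := ecg_ecdAdd (levelsS S) complexConjugation complexConjugation_mul_self h2 hfin
    (ecg_h3 hp2 S hpS)
  have h0 := ecd_devissage p (levelsS S) _ hadd (ecg_base hp2 S hpS) M M.ρ hM
  refine ⟨(hfin M M.ρ hM).1, (hfin M M.ρ hM).2, ?_⟩
  simp only [ecgE] at h0
  omega

end Fermat.Agent.S56
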