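import Fermat.Agent.S55.Top.Ind
import Fermat.Agent.S55.SM.MackeyCoh

/-!
# S56 / EC: the archimedean term `dim Ind_H^G ψ - dim (Ind_H^G ψ)^c` as a double-coset count

`G` a group, `H` a subgroup of finite index, `c : G` with `c * c = 1`, `R` a field,
`ψ : H →* Rˣ`; `r : Γ →* G` any homomorphism with image `{1, c}` and `rep : T → G` a system of
representatives of the double cosets `H \ G / r(Γ)` (`IsDCReps`, `S55/SM/Mackey.lean`).  Then

`dim Ind_H^G ψ = dim (Ind_H^G ψ)^c + #{s | rep s * c * (rep s)⁻¹ ∉ H}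
    + #{s | rep s * c * (rep s)⁻¹ ∈ H ∧ ψ (rep s * c * (rep s)⁻¹) ≠ 1}`

(complex places, and real places where `ψ(c_v) ≠ 1`).
-/

set_option autoImplicit false
set_option linter.style.haveILetI false

namespace Fermat.Agent.S56

open Fermat.Agent.S55 Module

section FinrankInd

variable {k : Type*} [Field k] {G : Type*} [Group G] (H : Subgroup G) {W : Type*}
  [AddCommGroup W] [Module k W] (σ : Representation k ↥H W)

/-- restriction of `Ind` to a transversal -/
def ecgaRestr (T : Finset G) : ↥(indSpace H σ) →ₗ[k] ({t // t ∈ T} → W) where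
  toFun F t := F.1 t
  map_add' _ _ := rfl
  map_smul' _ _ := rfl

theorem ecgaRestr_bijective {T : Finset G} (hT : IsIndTransv H T) :
    Function.Bijective (ecgaRestr H σ T) := by
  classical
  constructor
  · intro F F' hFF'
    apply Subtype.ext
    funext g
    obtain ⟨t, ⟨ht, hg⟩, -⟩ := hT g
    have h1 : F.1 t = F'.1 t := congrFun hFF' ⟨t, ht⟩
    rw [indSpace.apply_eq H σ F g t hg, indSpace.apply_eq H σ F' g t hg, h1]
  · intro φ
    refine ⟨∑ t : {t // t ∈ T}, indDelta H σ (t : G) (φ t), ?_⟩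
    funext t'
    show ((∑ t : {t // t ∈ T}, indDelta H σ (t : G) (φ t) : ↥(indSpace H σ)) : G → W) t' = φ t'
    rw [Submodule.coe_sum, Finset.sum_apply, Finset.sum_eq_single t']
    · exact indDelta_apply_self H σ _ _
    · intro t _ hne
      refine indDelta_apply_of_notMem H σ _ _ _ (fun hmem => hne ?_)
      exact Subtype.ext (hT.eq_of_mem H t'.2 t.2 hmem).symm
    · intro h
      exact absurd (Finset.mem_univ t') h

/-- `dim Ind_H^G W = [G : H] * dim W` -/
theorem ecga_finrank_indSpace [H.FiniteIndex] [FiniteDimensional k W] :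
    finrank k ↥(indSpace H σ) = H.index * finrank k W := by
  obtain ⟨T, hT⟩ := exists_isIndTransv H
  rw [LinearEquiv.finrank_eq (LinearEquiv.ofBijective _ (ecgaRestr_bijective H σ hT)),
    Module.finrank_pi_fintype, Finset.sum_const, Finset.card_univ, Fintype.card_coe,
    hT.card_eq H, smul_eq_mul]

end FinrankInd

section Count

variable {G Γ : Type*} [Group G] [Group Γ] (H : Subgroup G) (c : G) (r : Γ →* G)
  {T : Type*} [Fintype T] (rep : T → G)

open Classical in
/-- `[G : H] = Σ_s (1 or 2)`: a double coset `H t ⟨c⟩` consists of one or two right cosets -/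
theorem ecga_index_eq_sum [H.FiniteIndex]
    (hr : ∀ g : G, (∃ γ, r γ = g) ↔ g = 1 ∨ g = c) (hrep : IsDCReps r H rep) :
    H.index = ∑ s : T, (if rep s * c * (rep s)⁻¹ ∈ H then 1 else 2) := by
  classical
  obtain ⟨T₂, hT₂⟩ := exists_isIndTransv H
  rw [← hT₂.card_eq H]
  -- the `T₂`-representative of a coset
  choose τ hτ hτu using hT₂
  -- the double coset of an element
  choose f hf hfu using hrep
  have hmaps : ∀ t ∈ T₂, f t ∈ (Finset.univ : Finset T) := fun _ _ => Finset.mem_univ _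
  rw [Finset.card_eq_sum_card_fiberwise hmaps]
  refine Finset.sum_congr rfl (fun s _ => ?_)
  -- the fibre over `s`
  have hfib : T₂.filter (fun t => f t = s) = {τ (rep s), τ (rep s * c)} := by
    ext t
    rw [Finset.mem_filter, Finset.mem_insert, Finset.mem_singleton]
    constructor
    · rintro ⟨ht, rfl⟩
      obtain ⟨h, γ, hg⟩ := hf t
      rcases (hr (r γ)).1 ⟨γ, rfl⟩ with h1 | h1
      · left
        refine hτu (rep (f t)) t ⟨ht, ?_⟩
        rw [h1, mul_one] at hg
        generalize rep (f t) = a at hg ⊢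
        subst hg
        have h2 : a * ((h : G) * a)⁻¹ = ((h : G))⁻¹ := by group
        rw [h2]
        exact H.inv_mem h.2
      · right
        refine hτu (rep (f t) * c) t ⟨ht, ?_⟩
        rw [h1] at hg
        generalize rep (f t) = a at hg ⊢
        subst hg
        have h2 : a * c * ((h : G) * a * c)⁻¹ = ((h : G))⁻¹ := by group
        rw [h2]
        exact H.inv_mem h.2
    · rintro (rfl | rfl)
      · refine ⟨(hτ _).1, ?_⟩
        refine (hfu _ s ⟨⟨(rep s * (τ (rep s))⁻¹)⁻¹, H.inv_mem (hτ _).2⟩, 1, ?_⟩).symm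
        show τ (rep s) = (rep s * (τ (rep s))⁻¹)⁻¹ * rep s * r 1
        rw [map_one]
        group
      · obtain ⟨γ, hγ⟩ := (hr c).2 (Or.inr rfl)
        refine ⟨(hτ _).1, ?_⟩
        refine (hfu _ s
          ⟨⟨(rep s * c * (τ (rep s * c))⁻¹)⁻¹, H.inv_mem (hτ _).2⟩, γ, ?_⟩).symm
        show τ (rep s * c) = (rep s * c * (τ (rep s * c))⁻¹)⁻¹ * rep s * r γ
        rw [hγ]
        group
  rw [hfib]
  split_ifs with hQ
  · -- the two representatives coincide
    have : τ (rep s * c) = τ (rep s) := by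
      refine hτu (rep s) _ ⟨(hτ _).1, ?_⟩
      have h1 := (hτ (rep s * c)).2
      have h2 : rep s * (τ (rep s * c))⁻¹ =
          (rep s * c * (rep s)⁻¹)⁻¹ * (rep s * c * (τ (rep s * c))⁻¹) := by group
      rw [h2]
      exact H.mul_mem (H.inv_mem hQ) h1
    rw [this, Finset.pair_eq_singleton, Finset.card_singleton]
  · apply Finset.card_pair
    intro heq
    apply hQ
    have h1 := (hτ (rep s)).2
    have h2 := (hτ (rep s * c)).2
    rw [← heq] at h2
    have h3 : rep s * c * (rep s)⁻¹ =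
        (rep s * c * (τ (rep s))⁻¹) * (rep s * (τ (rep s))⁻¹)⁻¹ := by group
    rw [h3]
    exact H.mul_mem h2 (H.inv_mem h1)

end Count

section Inv

variable {R : Type*} [Field R] {G Γ : Type*} [Group G] [Group Γ] (H : Subgroup G) (c : G)
  (r : Γ →* G) (ψ : ↥H →* Rˣ) {T : Type*} [Fintype T] (rep : T → G)

/-- the `c`-invariants are the invariants of `Γ` acting through `r` -/
theorem ecga_smH0_comp_eq {W : Type*} [AddCommGroup W] [Module R W] (ρ : Representation R G W)
    (hr : ∀ g : G, (∃ γ, r γ = g) ↔ g = 1 ∨ g = c) :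
    smH0 (ρ.comp r) = LinearMap.ker (ρ c - 1) := by
  ext w
  show dd0 (ρ.comp r) w = 0 ↔ _
  rw [LinearMap.mem_ker, LinearMap.sub_apply, Module.End.one_apply]
  constructor
  · intro h
    obtain ⟨γ, hγ⟩ := (hr c).2 (Or.inr rfl)
    have h1 := congrFun h γ
    rw [dd0_apply, MonoidHom.comp_apply, hγ] at h1
    exact h1
  · intro h
    funext γ
    rw [dd0_apply, MonoidHom.comp_apply]
    rcases (hr (r γ)).1 ⟨γ, rfl⟩ with h1 | h1
    · rw [h1, map_one, Module.End.one_apply, sub_self]
      rfl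
    · rw [h1]
      exact h

open Classical in
/-- the dimension of the invariants of a character of `Γ_t` on `R` -/
theorem ecga_finrank_smH0_mackeyRep (hr : ∀ g : G, (∃ γ, r γ = g) ↔ g = 1 ∨ g = c) (t : G) :
    finrank R ↥(smH0 (mackeyRep r H (chiRep ψ) t)) =
      if ∃ h : t * c * t⁻¹ ∈ H, ψ ⟨_, h⟩ ≠ 1 then 0 else 1 := by
  split_ifs with hP
  · obtain ⟨h, hne⟩ := hP
    obtain ⟨γ, hγ⟩ := (hr c).2 (Or.inr rfl)
    have hmem : γ ∈ mackeySub r H t := by
      rw [mem_mackeySub, hγ]
      exact h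
    have hbot : smH0 (mackeyRep r H (chiRep ψ) t) = ⊥ := by
      rw [eq_bot_iff]
      intro x hx
      have h1 := congrFun (show dd0 (mackeyRep r H (chiRep ψ) t) x = 0 from hx) ⟨γ, hmem⟩
      rw [dd0_apply, MonoidHom.comp_apply, chiRep_apply, Pi.zero_apply] at h1
      have h2 : mackeyHom r H t ⟨γ, hmem⟩ = ⟨t * c * t⁻¹, h⟩ := by
        apply Subtype.ext
        rw [coe_mackeyHom, hγ]
      rw [h2] at h1
      have h3 : ((ψ ⟨t * c * t⁻¹, h⟩ : R) - 1) * x = 0 := by
        rw [sub_mul, one_mul]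
        exact h1
      rcases mul_eq_zero.1 h3 with h4 | h4
      · exfalso
        apply hne
        apply Units.ext
        rw [Units.val_one]
        exact sub_eq_zero.1 h4
      · exact (Submodule.mem_bot R).2 h4
    rw [hbot, finrank_bot]
  · have htop : smH0 (mackeyRep r H (chiRep ψ) t) = ⊤ := by
      rw [eq_top_iff]
      intro x _
      show dd0 (mackeyRep r H (chiRep ψ) t) x = 0
      funext γ
      rw [dd0_apply, MonoidHom.comp_apply, chiRep_apply, Pi.zero_apply]
      have h1 : ψ (mackeyHom r H t γ) = 1 := by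
        rcases (hr (r γ)).1 ⟨(γ : Γ), rfl⟩ with h2 | h2
        · have : mackeyHom r H t γ = 1 := by
            apply Subtype.ext
            rw [coe_mackeyHom, h2, mul_one, mul_inv_cancel]
            rfl
          rw [this, map_one]
        · by_contra hne
          apply hP
          have hmem : t * c * t⁻¹ ∈ H := by
            have := mem_mackeySub.1 γ.2
            rwa [h2] at this
          refine ⟨hmem, ?_⟩
          have : mackeyHom r H t γ = ⟨t * c * t⁻¹, hmem⟩ := by
            apply Subtype.ext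
            rw [coe_mackeyHom, h2]
          rwa [this] at hne
      rw [h1, Units.val_one, one_mul, sub_self]
    rw [htop, finrank_top, Module.finrank_self]

open Classical in
/-- `dim (Ind_H^G ψ)^c = #{s | ¬ (rep s c (rep s)⁻¹ ∈ H ∧ ψ (rep s c (rep s)⁻¹) ≠ 1)}` -/
theorem ecgar_finrank_inv (hr : ∀ g : G, (∃ γ, r γ = g) ↔ g = 1 ∨ g = c)
    (hrep : IsDCReps r H rep) :
    finrank R ↥(LinearMap.ker (indRep H (chiRep ψ) c - 1)) =
      ∑ s : T, (if ∃ h : rep s * c * (rep s)⁻¹ ∈ H, ψ ⟨_, h⟩ ≠ 1 then 0 else 1) := by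
  rw [← ecga_smH0_comp_eq c r (indRep H (chiRep ψ)) hr,
    LinearEquiv.finrank_eq (mackeyShapiro0 (chiRep ψ) hrep), Module.finrank_pi_fintype]
  exact Finset.sum_congr rfl (fun s _ => ecga_finrank_smH0_mackeyRep H c r ψ hr (rep s))

open Classical in
/-- **The archimedean term.** `dim Ind_H^G ψ = dim (Ind_H^G ψ)^c + #{complex} + #{real, ψ(c_v) ≠ 1}` -/
theorem ecg_arch_count [H.FiniteIndex] (hr : ∀ g : G, (∃ γ, r γ = g) ↔ g = 1 ∨ g = c)
    (hrep : IsDCReps r H rep) :
    finrank R ↥(indSpace H (chiRep ψ)) =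
      finrank R ↥(LinearMap.ker (indRep H (chiRep ψ) c - 1)) +
        Nat.card {s : T // rep s * c * (rep s)⁻¹ ∉ H} +
        Nat.card {s : T // ∃ h : rep s * c * (rep s)⁻¹ ∈ H, ψ ⟨_, h⟩ ≠ 1} := by
  rw [ecga_finrank_indSpace, Module.finrank_self, mul_one, ecga_index_eq_sum H c r rep hr hrep,
    ecgar_finrank_inv H c r ψ rep hr hrep, Nat.card_eq_fintype_card, Nat.card_eq_fintype_card,
    Fintype.card_subtype, Fintype.card_subtype, Finset.card_filter, Finset.card_filter,
    ← Finset.sum_add_distrib, ← Finset.sum_add_distrib]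
  refine Finset.sum_congr rfl (fun s _ => ?_)
  by_cases hQ : rep s * c * (rep s)⁻¹ ∈ H
  · simp only [hQ, exists_true_left, not_true_eq_false, if_true, if_false]
    by_cases h1 : ψ ⟨rep s * c * (rep s)⁻¹, hQ⟩ = 1
    · simp [h1]
    · simp [h1]
  · simp [hQ]

end Inv

section Zpowers

universe u

variable {G : Type u} [Group G] (H : Subgroup G) (c : G)

/-- the image of `⟨c⟩ → G` is `{1, c}` when `c² = 1` -/
theorem ecga_zpowers_range (hc : c * c = 1) (g : G) :
    (∃ γ : ↥(Subgroup.zpowers c), (Subgroup.zpowers c).subtype γ = g) ↔ g = 1 ∨ g = c := by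
  constructor
  · rintro ⟨⟨γ, hγ⟩, rfl⟩
    obtain ⟨n, rfl⟩ := Subgroup.mem_zpowers_iff.1 hγ
    show c ^ n = 1 ∨ c ^ n = c
    have hc2 : c ^ (2 : ℤ) = 1 := by
      rw [zpow_ofNat, pow_two]
      exact hc
    rcases Int.even_or_odd' n with ⟨m, rfl | rfl⟩
    · left
      rw [zpow_mul, hc2, one_zpow]
    · right
      rw [zpow_add, zpow_mul, hc2, one_zpow, one_mul, zpow_one]
  · rintro (rfl | rfl)
    · exact ⟨1, rfl⟩
    · exact ⟨⟨g, Subgroup.mem_zpowers g⟩, rfl⟩

/-- double coset representatives exist for a subgroup of finite index -/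
theorem ecga_exists_dcReps [H.FiniteIndex] {Γ : Type*} [Group Γ] (r : Γ →* G) :
    ∃ (T : Type u) (_ : Fintype T) (rep : T → G), IsDCReps r H rep := by
  classical
  let T := DoubleCoset.Quotient (H : Set G) (r.range : Set G)
  have hsurj : Function.Surjective
      (fun q : Quotient (QuotientGroup.rightRel H) => (DoubleCoset.mk H r.range q.out : T)) := by
    intro x
    obtain ⟨g, rfl⟩ := Quotient.exists_rep x
    refine ⟨Quotient.mk _ g, ?_⟩
    show DoubleCoset.mk H r.range _ = DoubleCoset.mk H r.range g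
    rw [DoubleCoset.eq]
    have h1 : QuotientGroup.rightRel H (Quotient.mk (QuotientGroup.rightRel H) g).out g :=
      Quotient.exact (Quotient.out_eq _)
    rw [QuotientGroup.rightRel_apply] at h1
    refine ⟨_, h1, 1, r.range.one_mem, ?_⟩
    group
  haveI : Finite T := Finite.of_surjective _ hsurj
  haveI : Fintype T := Fintype.ofFinite T
  refine ⟨T, inferInstance, fun x => Quotient.out x, fun g => ?_⟩
  refine ⟨DoubleCoset.mk H r.range g, ?_, ?_⟩
  · obtain ⟨h, k, hh, hk, hout⟩ := DoubleCoset.mk_out_eq_mul H r.range g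
    obtain ⟨γ, rfl⟩ := hk
    refine ⟨⟨h⁻¹, H.inv_mem hh⟩, γ⁻¹, ?_⟩
    show g = h⁻¹ * Quotient.out (DoubleCoset.mk H r.range g) * r γ⁻¹
    rw [hout, map_inv]
    group
  · rintro x ⟨h, γ, hg⟩
    have h1 : DoubleCoset.mk H r.range (Quotient.out x) = DoubleCoset.mk H r.range g :=
      (DoubleCoset.eq H r.range _ _).2 ⟨h, h.2, r γ, ⟨γ, rfl⟩, hg⟩
    rw [← h1]
    exact (Quotient.out_eq x).symm

end Zpowers

section Formula

variable {R : Type*} [Field R] {G : Type*} [Group G] (𝓛 : Levels G) (H : Subgroup G) (c : G)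
  (ψ : ↥H →* Rˣ) {Γ : Type*} [Group Γ] (r : Γ →* G) {T : Type*} [Fintype T] (rep : T → G)

/-- the Euler characteristic formula in terms of the double-coset count -/
theorem ecg_formula_of_count [H.FiniteIndex]
    (hr : ∀ g : G, (∃ γ, r γ = g) ↔ g = 1 ∨ g = c) (hrep : IsDCReps r H rep)
    (hcount : (finrank R ↥(smH0 (chiRep ψ)) : ℤ) + (finrank R (smH2 (𝓛.sub H) (chiRep ψ)) : ℤ) +
        (Nat.card {s : T // rep s * c * (rep s)⁻¹ ∉ H} : ℤ) +
        (Nat.card {s : T // ∃ h : rep s * c * (rep s)⁻¹ ∈ H, ψ ⟨_, h⟩ ≠ 1} : ℤ) =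
      (finrank R (smH1 (𝓛.sub H) (chiRep ψ)) : ℤ)) :
    (finrank R ↥(smH0 (chiRep ψ)) : ℤ) + (finrank R (smH2 (𝓛.sub H) (chiRep ψ)) : ℤ) +
        (finrank R ↥(indSpace H (chiRep ψ)) : ℤ) =
      (finrank R (smH1 (𝓛.sub H) (chiRep ψ)) : ℤ) +
        (finrank R ↥(LinearMap.ker (indRep H (chiRep ψ) c - 1)) : ℤ) := by
  have h := ecg_arch_count H c r ψ rep hr hrep
  omega

end Formula

end Fermat.Agent.S56
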