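import Fermat.Agent.S56.EcDev.Defs
import Fermat.Agent.S55.Top.Dev

/-!
# S56 / EC (Tate's global Euler characteristic): definitions

`ecgE 𝓛 c V ρ = h⁰ + h² + dim V - h¹ - dim V^c` (an integer; `0` iff the Euler characteristic
formula `h⁰ - h¹ + h² = dim V^c - dim V` holds, provided the `hⁱ` are finite).
-/

set_option autoImplicit false

namespace Fermat.Agent.S56

open Fermat.Agent.S55

universe u

variable {k : Type u} [Field k] {G : Type u} [Group G]

/-- the Euler-characteristic defect `h⁰ + h² + dim V - h¹ - dim V^c` -/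
noncomputable def ecgE (𝓛 : Levels G) (c : G) (V : Type u) [AddCommGroup V] [Module k V]
    (ρ : Representation k G V) : ℤ :=
  (Module.finrank k ↥(smH0 ρ) : ℤ) + (Module.finrank k (smH2 𝓛 ρ) : ℤ) +
      (Module.finrank k V : ℤ) - (Module.finrank k (smH1 𝓛 ρ) : ℤ) -
    (Module.finrank k ↥(LinearMap.ker (ρ c - 1)) : ℤ)

end Fermat.Agent.S56
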